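import Fermat.Agent.Gam0.Cusps

/-!
# The index of `Γ₀(N)` in `SL(2, ℤ)` is `ψ(N)`
-/

set_option autoImplicit false

open Matrix Matrix.SpecialLinearGroup CongruenceSubgroup
open scoped MatrixGroups

namespace Fermat.Agent.Gam0

lemma Gamma0_le_of_dvd {M N : ℕ} (h : M ∣ N) : Gamma0 N ≤ Gamma0 M := by
  intro g hg
  rw [Gamma0_mem, ZMod.intCast_zmod_eq_zero_iff_dvd] at hg ⊢
  exact (Int.natCast_dvd_natCast.mpr h).trans hg

lemma quot_eq_iff {M N : ℕ} (g h : Gamma0 M) :
    (QuotientGroup.mk g : Gamma0 M ⧸ (Gamma0 N).subgroupOf (Gamma0 M)) = QuotientGroup.mk h ↔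
      (N : ℤ) ∣ g.1 0 0 * h.1 1 0 - h.1 0 0 * g.1 1 0 := by
  rw [QuotientGroup.eq, Subgroup.mem_subgroupOf, Subgroup.coe_mul, Subgroup.coe_inv,
    ← mk_eq_mk_iff, QuotientGroup.eq]

/-- lower triangular element of `Γ₀(M)` -/
def lowerSL (c : ℤ) : SL(2, ℤ) := ⟨!![1, 0; c, 1], by simp [Matrix.det_fin_two]⟩

@[simp] lemma lowerSL_00 (c : ℤ) : lowerSL c 0 0 = 1 := rfl
@[simp] lemma lowerSL_10 (c : ℤ) : lowerSL c 1 0 = c := rfl

/-- lower triangular element of `Γ₀(M)` -/
def lowerElt (M : ℕ) (k : ℤ) : Gamma0 M :=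
  ⟨lowerSL (M * k), by
    rw [Gamma0_mem, ZMod.intCast_zmod_eq_zero_iff_dvd, lowerSL_10]
    exact ⟨k, rfl⟩⟩

@[simp] lemma lowerElt_00 (M : ℕ) (k : ℤ) : (lowerElt M k).1 0 0 = 1 := rfl
@[simp] lemma lowerElt_10 (M : ℕ) (k : ℤ) : (lowerElt M k).1 1 0 = M * k := rfl

lemma dvd_10 {M : ℕ} (g : Gamma0 M) : (M : ℤ) ∣ g.1 1 0 := by
  rw [← ZMod.intCast_zmod_eq_zero_iff_dvd]
  exact Gamma0_mem.mp g.2

lemma exists_lower_of_not_dvd {M p : ℕ} (hp : p.Prime) (g : Gamma0 M)
    (hpa : ¬ (p : ℤ) ∣ g.1 0 0) :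
    ∃ k : ZMod p, (QuotientGroup.mk (lowerElt M (ZMod.cast k : ℤ)) :
      Gamma0 M ⧸ (Gamma0 (M * p)).subgroupOf (Gamma0 M)) = QuotientGroup.mk g := by
  have := Fact.mk hp
  obtain ⟨c, hc⟩ := dvd_10 g
  have ha : ((g.1 0 0 : ℤ) : ZMod p) ≠ 0 := by
    rwa [Ne, ZMod.intCast_zmod_eq_zero_iff_dvd]
  refine ⟨(c : ZMod p) * ((g.1 0 0 : ℤ) : ZMod p)⁻¹, ?_⟩
  rw [quot_eq_iff, lowerElt_00, lowerElt_10, hc]
  have h1 : (p : ℤ) ∣ c - g.1 0 0 *
      (ZMod.cast ((c : ZMod p) * ((g.1 0 0 : ℤ) : ZMod p)⁻¹) : ℤ) := by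
    rw [← ZMod.intCast_zmod_eq_zero_iff_dvd]
    rw [Int.cast_sub, Int.cast_mul, ZMod.intCast_zmod_cast, mul_left_comm, mul_inv_cancel₀ ha,
      mul_one, sub_self]
  obtain ⟨t, ht⟩ := h1
  refine ⟨t, ?_⟩
  push_cast
  linear_combination (M : ℤ) * ht

lemma lower_injective {M p : ℕ} (hM : 0 < M) {k l : ZMod p}
    (h : (QuotientGroup.mk (lowerElt M (ZMod.cast k : ℤ)) :
      Gamma0 M ⧸ (Gamma0 (M * p)).subgroupOf (Gamma0 M)) =
        QuotientGroup.mk (lowerElt M (ZMod.cast l : ℤ))) : k = l := by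
  rw [quot_eq_iff] at h
  simp only [lowerElt_00, lowerElt_10] at h
  obtain ⟨t, ht⟩ := h
  have h1 : (ZMod.cast l : ℤ) - (ZMod.cast k : ℤ) = p * t := by
    have h2 : (M : ℤ) * ((ZMod.cast l : ℤ) - (ZMod.cast k : ℤ)) = M * (p * t) := by
      push_cast at ht
      linear_combination ht
    exact mul_left_cancel₀ (by exact_mod_cast hM.ne') h2
  have h3 := congrArg (Int.cast : ℤ → ZMod p) h1
  rw [Int.cast_sub, ZMod.intCast_zmod_cast, ZMod.intCast_zmod_cast, Int.cast_mul,
    Int.cast_natCast, ZMod.natCast_self, zero_mul, sub_eq_zero] at h3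
  exact h3.symm

lemma relIndex_of_dvd {M p : ℕ} (hM : 0 < M) (hp : p.Prime) (hpM : p ∣ M) :
    (Gamma0 (M * p)).relIndex (Gamma0 M) = p := by
  have := Fact.mk hp
  rw [Subgroup.relIndex, Subgroup.index]
  let F : ZMod p → Gamma0 M ⧸ (Gamma0 (M * p)).subgroupOf (Gamma0 M) :=
    fun k => QuotientGroup.mk (lowerElt M (ZMod.cast k : ℤ))
  have hF : Function.Bijective F := by
    refine ⟨fun k l h => lower_injective hM h, fun x => ?_⟩
    induction x using QuotientGroup.induction_on with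
    | H g =>
      apply exists_lower_of_not_dvd hp
      intro hpa
      have hpc : (p : ℤ) ∣ g.1 1 0 := (Int.natCast_dvd_natCast.mpr hpM).trans (dvd_10 g)
      have := (isCoprime_col g.1).isUnit_of_dvd' hpa hpc
      rw [Int.isUnit_iff_natAbs_eq, Int.natAbs_natCast] at this
      exact hp.one_lt.ne' this
  rw [← Nat.card_congr (Equiv.ofBijective F hF), Nat.card_zmod]

lemma relIndex_of_not_dvd {M p : ℕ} (hM : 0 < M) (hp : p.Prime) (hpM : ¬ p ∣ M) :
    (Gamma0 (M * p)).relIndex (Gamma0 M) = p + 1 := by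
  have := Fact.mk hp
  have hcop : IsCoprime (p : ℤ) (M : ℤ) := by
    rw [Nat.isCoprime_iff_coprime]
    exact (Nat.Prime.coprime_iff_not_dvd hp).mpr hpM
  obtain ⟨g₀, h00, h10⟩ := hcop.exists_SL2_col 0
  have hg₀ : g₀ ∈ Gamma0 M := by
    rw [Gamma0_mem, h10]
    simp
  rw [Subgroup.relIndex, Subgroup.index]
  let F : Option (ZMod p) → Gamma0 M ⧸ (Gamma0 (M * p)).subgroupOf (Gamma0 M) :=
    fun k => k.elim (QuotientGroup.mk ⟨g₀, hg₀⟩)
      (fun k => QuotientGroup.mk (lowerElt M (ZMod.cast k : ℤ)))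
  have hne : ∀ k : ℤ, (QuotientGroup.mk (⟨g₀, hg₀⟩ : Gamma0 M) :
      Gamma0 M ⧸ (Gamma0 (M * p)).subgroupOf (Gamma0 M)) ≠ QuotientGroup.mk (lowerElt M k) := by
    intro k h
    rw [quot_eq_iff] at h
    simp only [lowerElt_00, lowerElt_10] at h
    rw [h00, h10] at h
    obtain ⟨t, ht⟩ := h
    have h2 : (M : ℤ) * (p * k - 1) = M * (p * t) := by
      push_cast at ht
      linear_combination ht
    have h3 := mul_left_cancel₀ (by exact_mod_cast hM.ne') h2
    have h4 : (p : ℤ) ∣ 1 := ⟨k - t, by linear_combination -h3⟩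
    have h5 := Int.natCast_dvd_natCast.mp (by simpa using h4 : (p : ℤ) ∣ ((1 : ℕ) : ℤ))
    exact hp.one_lt.ne' (Nat.dvd_one.mp h5)
  have hF : Function.Bijective F := by
    constructor
    · rintro (_ | k) (_ | l) h
      · rfl
      · exact absurd h (hne _)
      · exact absurd h.symm (hne _)
      · exact congrArg some (lower_injective hM h)
    · intro x
      induction x using QuotientGroup.induction_on with
      | H g =>
        by_cases hpa : (p : ℤ) ∣ g.1 0 0
        · refine ⟨none, ?_⟩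
          show QuotientGroup.mk _ = _
          rw [quot_eq_iff]
          obtain ⟨c, hc⟩ := dvd_10 g
          obtain ⟨a, ha⟩ := hpa
          rw [hc, ha]
          simp only
          rw [h00, h10]
          refine ⟨c - a, ?_⟩
          push_cast
          ring
        · obtain ⟨k, hk⟩ := exists_lower_of_not_dvd hp g hpa
          exact ⟨some k, hk⟩
  rw [← Nat.card_congr (Equiv.ofBijective F hF)]
  simp

lemma dedekindPsi_mul_of_dvd {M p : ℕ} (hM : 0 < M) (hp : p.Prime) (hpM : p ∣ M) :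
    ModularCurve.dedekindPsi (M * p) = p * ModularCurve.dedekindPsi M := by
  rw [ModularCurve.dedekindPsi, ModularCurve.dedekindPsi, Finset.mul_sum]
  have hset : (M * p).divisors.filter Squarefree = M.divisors.filter Squarefree := by
    ext d
    simp only [Finset.mem_filter, Nat.mem_divisors]
    constructor
    · rintro ⟨⟨h1, h2⟩, h3⟩
      refine ⟨⟨?_, hM.ne'⟩, h3⟩
      have h4 : d ∣ M ^ 2 := by
        rw [pow_two]
        exact h1.trans (mul_dvd_mul_left M hpM)
      exact (h3.dvd_pow_iff_dvd two_ne_zero).mp h4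
    · rintro ⟨⟨h1, h2⟩, h3⟩
      exact ⟨⟨h1.mul_right p, mul_ne_zero hM.ne' hp.ne_zero⟩, h3⟩
  rw [hset]
  refine Finset.sum_congr rfl fun d hd => ?_
  rw [mul_comm M p]
  exact Nat.mul_div_assoc p (Nat.dvd_of_mem_divisors (Finset.mem_filter.mp hd).1)

lemma dedekindPsi_mul_of_not_dvd {M p : ℕ} (hM : 0 < M) (hp : p.Prime) (hpM : ¬ p ∣ M) :
    ModularCurve.dedekindPsi (M * p) = (p + 1) * ModularCurve.dedekindPsi M := by
  classical
  have hset : (M * p).divisors.filter Squarefree =
      M.divisors.filter Squarefree ∪ (M.divisors.filter Squarefree).image (· * p) := by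
    ext d
    simp only [Finset.mem_filter, Nat.mem_divisors, Finset.mem_union, Finset.mem_image]
    constructor
    · rintro ⟨⟨h1, h2⟩, h3⟩
      by_cases hpd : p ∣ d
      · right
        obtain ⟨e, rfl⟩ := hpd
        refine ⟨e, ⟨⟨?_, hM.ne'⟩, h3.of_mul_right⟩, mul_comm _ _⟩
        rw [mul_comm M p] at h1
        exact Nat.dvd_of_mul_dvd_mul_left hp.pos h1
      · left
        refine ⟨⟨?_, hM.ne'⟩, h3⟩
        exact (((Nat.Prime.coprime_iff_not_dvd hp).mpr hpd).symm).dvd_of_dvd_mul_right h1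
    · rintro (⟨⟨h1, h2⟩, h3⟩ | ⟨e, ⟨⟨h1, h2⟩, h3⟩, rfl⟩)
      · exact ⟨⟨h1.mul_right p, mul_ne_zero hM.ne' hp.ne_zero⟩, h3⟩
      · refine ⟨⟨mul_dvd_mul_right h1 p, mul_ne_zero hM.ne' hp.ne_zero⟩, ?_⟩
        rw [Nat.squarefree_mul ?_]
        · exact ⟨h3, hp.prime.squarefree⟩
        · exact ((Nat.Prime.coprime_iff_not_dvd hp).mpr fun h => hpM (h.trans h1)).symm
  have hdisj : Disjoint (M.divisors.filter Squarefree)
      ((M.divisors.filter Squarefree).image (· * p)) := by
    rw [Finset.disjoint_left]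
    intro d hd hd'
    obtain ⟨e, -, rfl⟩ := Finset.mem_image.mp hd'
    have h1 := Nat.dvd_of_mem_divisors (Finset.mem_filter.mp hd).1
    exact hpM ((dvd_mul_left p e).trans h1)
  rw [ModularCurve.dedekindPsi, ModularCurve.dedekindPsi, hset, Finset.sum_union hdisj,
    Finset.sum_image (fun a _ b _ h => Nat.eq_of_mul_eq_mul_right hp.pos h), add_mul, one_mul,
    Finset.mul_sum]
  congr 1
  · refine Finset.sum_congr rfl fun d hd => ?_
    rw [mul_comm M p]
    exact Nat.mul_div_assoc p (Nat.dvd_of_mem_divisors (Finset.mem_filter.mp hd).1)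
  · refine Finset.sum_congr rfl fun d hd => ?_
    exact Nat.mul_div_mul_right _ _ hp.pos

/-- The index of `Γ₀(N)` in `SL(2, ℤ)` is `ψ(N)`. -/
theorem index_Gamma0 (N : ℕ) (hN : 0 < N) : (Gamma0 N).index = ModularCurve.dedekindPsi N := by
  induction N using Nat.strong_induction_on with
  | _ N ih =>
    rcases eq_or_ne N 1 with rfl | hN1
    · rw [ModularCurve.dedekindPsi_one, Subgroup.index_eq_one]
      ext A
      simp [Gamma0_mem, eq_iff_true_of_subsingleton]
    · have hp : N.minFac.Prime := Nat.minFac_prime hN1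
      obtain ⟨M, hM⟩ := Nat.minFac_dvd N
      set p := N.minFac with hpdef
      have hM0 : 0 < M := by
        rcases Nat.eq_zero_or_pos M with h | h
        · rw [h, mul_zero] at hM; omega
        · exact h
      have hlt : M < N := by
        rw [hM]; have := hp.one_lt; nlinarith
      have hN' : N = M * p := by rw [hM, mul_comm]
      have h1 := Subgroup.relIndex_mul_index (Gamma0_le_of_dvd (dvd_mul_right M p))
      rw [ih M hlt hM0] at h1
      rw [hN', ← h1]
      by_cases hpM : p ∣ M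
      · rw [relIndex_of_dvd hM0 hp hpM, dedekindPsi_mul_of_dvd hM0 hp hpM]
      · rw [relIndex_of_not_dvd hM0 hp hpM, dedekindPsi_mul_of_not_dvd hM0 hp hpM]

theorem card_X (N : ℕ) [NeZero N] : Nat.card (X N) = ModularCurve.dedekindPsi N :=
  index_Gamma0 N (Nat.pos_of_ne_zero (NeZero.ne N))

lemma S_sq_smul {N : ℕ} (x : X N) : ModularGroup.S ^ 2 • x = x := by
  have : ModularGroup.S ^ 2 = -1 := by decide
  rw [this, neg_one_smul]

lemma ST_cube_smul {N : ℕ} (x : X N) : (ModularGroup.S * ModularGroup.T) ^ 3 • x = x := by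
  have : (ModularGroup.S * ModularGroup.T) ^ 3 = -1 := by decide
  rw [this, neg_one_smul]

lemma TS_cube_smul {N : ℕ} (x : X N) : (ModularGroup.T * ModularGroup.S) ^ 3 • x = x := by
  have : (ModularGroup.T * ModularGroup.S) ^ 3 = -1 := by decide
  rw [this, neg_one_smul]

/-- Number of fixed points of `S`. -/
theorem card_fixed_S (N : ℕ) :
    Nat.card {x : X N // ModularGroup.S • x = x} = ModularCurve.nuTwo N := by
  rw [card_fixed ModularGroup.S (Or.inl (by decide)), ModularCurve.nuTwo]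
  refine Nat.card_congr (Equiv.subtypeEquivRight fun x => ?_)
  have h1 : ModularGroup.S 1 0 = 1 := by decide
  have h2 : ModularGroup.S 1 1 = 0 := by decide
  have h3 : ModularGroup.S 0 0 = 0 := by decide
  have h4 : ModularGroup.S 0 1 = -1 := by decide
  rw [h1, h2, h3, h4]
  push_cast
  rw [show (1 : ZMod N) * x ^ 2 + (0 - 0) * x - -1 = x ^ 2 + 1 by ring]

/-- Number of fixed points of `S * T`. -/
theorem card_fixed_ST (N : ℕ) :
    Nat.card {x : X N // (ModularGroup.S * ModularGroup.T) • x = x} = ModularCurve.nuThree N := by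
  rw [card_fixed (ModularGroup.S * ModularGroup.T) (Or.inl (by decide)), ModularCurve.nuThree]
  refine Nat.card_congr (Equiv.subtypeEquivRight fun x => ?_)
  have h1 : (ModularGroup.S * ModularGroup.T) 1 0 = 1 := by decide
  have h2 : (ModularGroup.S * ModularGroup.T) 1 1 = 1 := by decide
  have h3 : (ModularGroup.S * ModularGroup.T) 0 0 = 0 := by decide
  have h4 : (ModularGroup.S * ModularGroup.T) 0 1 = -1 := by decide
  rw [h1, h2, h3, h4]
  push_cast
  rw [show (1 : ZMod N) * x ^ 2 + (1 - 0) * x - -1 = x ^ 2 + x + 1 by ring]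

/-- Number of fixed points of `T * S`. -/
theorem card_fixed_TS (N : ℕ) :
    Nat.card {x : X N // (ModularGroup.T * ModularGroup.S) • x = x} = ModularCurve.nuThree N := by
  rw [card_fixed (ModularGroup.T * ModularGroup.S) (Or.inl (by decide)), ModularCurve.nuThree]
  refine Nat.card_congr (Equiv.subtypeEquiv (Equiv.neg _) fun x => ?_)
  have h1 : (ModularGroup.T * ModularGroup.S) 1 0 = 1 := by decide
  have h2 : (ModularGroup.T * ModularGroup.S) 1 1 = 0 := by decide
  have h3 : (ModularGroup.T * ModularGroup.S) 0 0 = 1 := by decide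
  have h4 : (ModularGroup.T * ModularGroup.S) 0 1 = -1 := by decide
  rw [h1, h2, h3, h4]
  push_cast
  rw [Equiv.neg_apply, show (1 : ZMod N) * x ^ 2 + (0 - 1) * x - -1 = (-x) ^ 2 + -x + 1 by ring]

/-- The fixed points of `γ⁻¹` are those of `γ`. -/
theorem card_fixed_inv {N : ℕ} (γ : SL(2, ℤ)) :
    Nat.card {x : X N // γ⁻¹ • x = x} = Nat.card {x : X N // γ • x = x} := by
  refine Nat.card_congr (Equiv.subtypeEquivRight fun x => ?_)
  rw [inv_smul_eq_iff, eq_comm]

/-- Number of orbits of `S`: `2 * #orbits = ψ(N) + ν₂(N)`. -/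
theorem card_orbits_S (N : ℕ) [NeZero N] :
    2 * Nat.card (MulAction.orbitRel.Quotient (Subgroup.zpowers ModularGroup.S) (X N)) =
      ModularCurve.dedekindPsi N + ModularCurve.nuTwo N := by
  have h := card_orbits_zpowers_prime (Y := X N) ModularGroup.S 2 Nat.prime_two S_sq_smul
  rw [card_X, card_fixed_S] at h
  simp only [Nat.add_one_sub_one, one_mul] at h
  exact h.symm

/-- Number of orbits of `S * T`: `3 * #orbits = ψ(N) + 2 ν₃(N)`. -/
theorem card_orbits_ST (N : ℕ) [NeZero N] :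
    3 * Nat.card (MulAction.orbitRel.Quotient
        (Subgroup.zpowers (ModularGroup.S * ModularGroup.T)) (X N)) =
      ModularCurve.dedekindPsi N + 2 * ModularCurve.nuThree N := by
  have h := card_orbits_zpowers_prime (Y := X N) (ModularGroup.S * ModularGroup.T) 3
    Nat.prime_three ST_cube_smul
  rw [card_X, card_fixed_ST] at h
  exact h.symm

/-- Number of orbits of `T * S`: `3 * #orbits = ψ(N) + 2 ν₃(N)`. -/
theorem card_orbits_TS (N : ℕ) [NeZero N] :
    3 * Nat.card (MulAction.orbitRel.Quotient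
        (Subgroup.zpowers (ModularGroup.T * ModularGroup.S)) (X N)) =
      ModularCurve.dedekindPsi N + 2 * ModularCurve.nuThree N := by
  have h := card_orbits_zpowers_prime (Y := X N) (ModularGroup.T * ModularGroup.S) 3
    Nat.prime_three TS_cube_smul
  rw [card_X, card_fixed_TS] at h
  exact h.symm

/-- Number of orbits of the cyclic group generated by `γ` on `SL(2, ℤ) ⧸ Γ₀(N)`, with the generic
instance `Subgroup.instMulAction` (the one appearing when a general lemma about `MulAction G Y` is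
specialised). All the `card_orbits_*` theorems above are stated with the instance found by
instance search, which is only definitionally equal to this one. -/
noncomputable def numOrbits (γ : SL(2, ℤ)) (N : ℕ) : ℕ :=
  Nat.card (@MulAction.orbitRel.Quotient (Subgroup.zpowers γ) (X N) _ Subgroup.instMulAction)

theorem numOrbits_eq (γ : SL(2, ℤ)) (N : ℕ) :
    numOrbits γ N = Nat.card (MulAction.orbitRel.Quotient (Subgroup.zpowers γ) (X N)) := rfl

theorem numOrbits_T (N : ℕ) [NeZero N] :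
    numOrbits ModularGroup.T N = ModularCurve.cuspCount N := card_orbits_T N

theorem two_mul_numOrbits_S (N : ℕ) [NeZero N] :
    2 * numOrbits ModularGroup.S N =
      ModularCurve.dedekindPsi N + ModularCurve.nuTwo N := card_orbits_S N

theorem three_mul_numOrbits_ST (N : ℕ) [NeZero N] :
    3 * numOrbits (ModularGroup.S * ModularGroup.T) N =
      ModularCurve.dedekindPsi N + 2 * ModularCurve.nuThree N := card_orbits_ST N

/-- The genus formula in terms of orbit counts on `SL(2, ℤ) ⧸ Γ₀(N)`. -/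
theorem genusFormula_eq (N : ℕ) [NeZero N] :
    ModularCurve.genusFormula N = 1 + (Nat.card (X N) : ℚ) / 12
      - (Nat.card {x : X N // ModularGroup.S • x = x} : ℚ) / 4
      - (Nat.card {x : X N // (ModularGroup.S * ModularGroup.T) • x = x} : ℚ) / 3
      - (Nat.card (MulAction.orbitRel.Quotient (Subgroup.zpowers ModularGroup.T) (X N)) : ℚ)
        / 2 := by
  rw [card_X, card_fixed_S, card_fixed_ST, card_orbits_T, ModularCurve.genusFormula]

/-- The genus formula in terms of orbit counts only: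
`2 g - 2 = ψ - #orb(S) - #orb(ST) - #orb(T)`. -/
theorem genusFormula_eq' (N : ℕ) [NeZero N] :
    2 * ModularCurve.genusFormula N - 2 = (Nat.card (X N) : ℚ)
      - (Nat.card (MulAction.orbitRel.Quotient (Subgroup.zpowers ModularGroup.S) (X N)) : ℚ)
      - (Nat.card (MulAction.orbitRel.Quotient
          (Subgroup.zpowers (ModularGroup.S * ModularGroup.T)) (X N)) : ℚ)
      - (Nat.card (MulAction.orbitRel.Quotient (Subgroup.zpowers ModularGroup.T) (X N)) : ℚ) := by
  have h2 := card_orbits_S N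
  have h3 := card_orbits_ST N
  have h2' := congrArg (Nat.cast : ℕ → ℚ) h2
  have h3' := congrArg (Nat.cast : ℕ → ℚ) h3
  push_cast at h2' h3'
  rw [card_X, card_orbits_T, ModularCurve.genusFormula]
  linarith

end Fermat.Agent.Gam0
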