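import Mathlib.NumberTheory.ModularForms.CongruenceSubgroups
import Mathlib.Data.ZMod.Units
import Mathlib.NumberTheory.Modular
import Fermat.Prelude.Def_ModularCurve_GenusNumerics

/-!
# Combinatorics of `SL(2, ℤ) ⧸ Γ₀(N)`

Left cosets `g Γ₀(N)` are classified by the first column `(a : c)` of `g` in `ℙ¹(ℤ/N)`.
-/

set_option autoImplicit false

open Matrix Matrix.SpecialLinearGroup CongruenceSubgroup
open scoped MatrixGroups

namespace Fermat.Agent.Gam0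

/-- The coset space `SL(2, ℤ) ⧸ Γ₀(N)`. -/
abbrev X (N : ℕ) : Type := SL(2, ℤ) ⧸ Gamma0 N

lemma mul_apply_00 (g h : SL(2, ℤ)) : (g * h) 0 0 = g 0 0 * h 0 0 + g 0 1 * h 1 0 := by
  simp [Matrix.SpecialLinearGroup.coe_mul, Matrix.mul_apply, Fin.sum_univ_two]

lemma mul_apply_10 (g h : SL(2, ℤ)) : (g * h) 1 0 = g 1 0 * h 0 0 + g 1 1 * h 1 0 := by
  simp [Matrix.SpecialLinearGroup.coe_mul, Matrix.mul_apply, Fin.sum_univ_two]

lemma inv_apply_10 (g : SL(2, ℤ)) : g⁻¹ 1 0 = - g 1 0 := by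
  simp [Matrix.SpecialLinearGroup.coe_inv, Matrix.adjugate_fin_two]

lemma inv_apply_11 (g : SL(2, ℤ)) : g⁻¹ 1 1 = g 0 0 := by
  simp [Matrix.SpecialLinearGroup.coe_inv, Matrix.adjugate_fin_two]

lemma det_eq (g : SL(2, ℤ)) : g 0 0 * g 1 1 - g 0 1 * g 1 0 = 1 := by
  have h := g.det_coe
  rwa [Matrix.det_fin_two] at h

lemma mk_eq_mk_iff {N : ℕ} (g h : SL(2, ℤ)) :
    (QuotientGroup.mk g : X N) = QuotientGroup.mk h ↔
      (N : ℤ) ∣ g 0 0 * h 1 0 - h 0 0 * g 1 0 := by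
  rw [QuotientGroup.eq, Gamma0_mem, ZMod.intCast_zmod_eq_zero_iff_dvd, mul_apply_10,
    inv_apply_10, inv_apply_11]
  ring_nf

lemma mk_eq_mk_iff' {N : ℕ} (g h : SL(2, ℤ)) :
    (QuotientGroup.mk g : X N) = QuotientGroup.mk h ↔
      ((g 0 0 : ℤ) : ZMod N) * ((h 1 0 : ℤ) : ZMod N)
        = ((h 0 0 : ℤ) : ZMod N) * ((g 1 0 : ℤ) : ZMod N) := by
  rw [mk_eq_mk_iff, ← ZMod.intCast_zmod_eq_zero_iff_dvd, Int.cast_sub, sub_eq_zero]
  push_cast
  rfl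

lemma smul_mk {N : ℕ} (g h : SL(2, ℤ)) :
    g • (QuotientGroup.mk h : X N) = QuotientGroup.mk (g * h) := rfl

lemma smul_mk_eq_mk_iff {N : ℕ} (γ g : SL(2, ℤ)) :
    γ • (QuotientGroup.mk g : X N) = QuotientGroup.mk g ↔
      (N : ℤ) ∣ γ 0 1 * g 1 0 ^ 2 + (γ 0 0 - γ 1 1) * g 0 0 * g 1 0 - γ 1 0 * g 0 0 ^ 2 := by
  rw [smul_mk, mk_eq_mk_iff, mul_apply_00, mul_apply_10]
  ring_nf

lemma isCoprime_col (g : SL(2, ℤ)) : IsCoprime (g 0 0) (g 1 0) :=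
  ⟨g 1 1, - g 0 1, by linarith [det_eq g]⟩

lemma neg_one_smul {N : ℕ} (x : X N) : (-1 : SL(2, ℤ)) • x = x := by
  induction x using QuotientGroup.induction_on with
  | H g =>
    rw [smul_mk, mk_eq_mk_iff]
    simp

instance instFiniteX (N : ℕ) [NeZero N] : Finite (X N) := by
  have : (Gamma0 N).FiniteIndex := inferInstance
  exact Subgroup.finite_quotient_of_finiteIndex

/-- If the first column `(a, c)` of `g` satisfies that every prime dividing `N` and `c` divides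
`a`, then `c` is prime to `N`. -/
lemma isUnit_c_of {N : ℕ} (g : SL(2, ℤ))
    (h : ∀ p : ℕ, p.Prime → p ∣ N → (p : ℤ) ∣ g 1 0 → (p : ℤ) ∣ g 0 0) :
    IsUnit ((g 1 0 : ℤ) : ZMod N) := by
  rw [ZMod.coe_int_isUnit_iff_isCoprime, Int.isCoprime_iff_gcd_eq_one]
  by_contra hne
  obtain ⟨p, hp, hpd⟩ := Nat.exists_prime_and_dvd hne
  have hpN : p ∣ N := by
    have := (Int.natCast_dvd_natCast.mpr hpd).trans (Int.gcd_dvd_left _ _)
    exact Int.natCast_dvd_natCast.mp this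
  have hpc : (p : ℤ) ∣ g 1 0 := (Int.natCast_dvd_natCast.mpr hpd).trans (Int.gcd_dvd_right _ _)
  have hpa := h p hp hpN hpc
  have := (isCoprime_col g).isUnit_of_dvd' hpa hpc
  rw [Int.isUnit_iff_natAbs_eq, Int.natAbs_natCast] at this
  exact hp.one_lt.ne' this

/-- If `c` is a unit mod `N`, the class of `g` is determined by `a / c`. -/
lemma mk_eq_mk_of_unit {N : ℕ} (g h : SL(2, ℤ)) (hg : IsUnit ((g 1 0 : ℤ) : ZMod N))
    (hh : IsUnit ((h 1 0 : ℤ) : ZMod N)) :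
    (QuotientGroup.mk g : X N) = QuotientGroup.mk h ↔
      ((g 0 0 : ℤ) : ZMod N) * ((g 1 0 : ℤ) : ZMod N)⁻¹
        = ((h 0 0 : ℤ) : ZMod N) * ((h 1 0 : ℤ) : ZMod N)⁻¹ := by
  rw [mk_eq_mk_iff']
  have h1 := ZMod.mul_inv_of_unit _ hg
  have h2 := ZMod.mul_inv_of_unit _ hh
  constructor
  · intro h3
    calc ((g 0 0 : ℤ) : ZMod N) * ((g 1 0 : ℤ) : ZMod N)⁻¹
        = (((g 0 0 : ℤ) : ZMod N) * ((h 1 0 : ℤ) : ZMod N)) * ((g 1 0 : ℤ) : ZMod N)⁻¹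
            * ((h 1 0 : ℤ) : ZMod N)⁻¹ := by
          linear_combination (-((g 0 0 : ℤ) : ZMod N) * ((g 1 0 : ℤ) : ZMod N)⁻¹) * h2
      _ = _ := by
          rw [h3]
          linear_combination (((h 0 0 : ℤ) : ZMod N) * ((h 1 0 : ℤ) : ZMod N)⁻¹) * h1
  · intro h3
    calc ((g 0 0 : ℤ) : ZMod N) * ((h 1 0 : ℤ) : ZMod N)
        = (((g 0 0 : ℤ) : ZMod N) * ((g 1 0 : ℤ) : ZMod N)⁻¹) * ((g 1 0 : ℤ) : ZMod N)
            * ((h 1 0 : ℤ) : ZMod N) := by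
          linear_combination (-((g 0 0 : ℤ) : ZMod N) * ((h 1 0 : ℤ) : ZMod N)) * h1
      _ = _ := by
          rw [h3]
          linear_combination (((h 0 0 : ℤ) : ZMod N) * ((g 1 0 : ℤ) : ZMod N)) * h2

/-- An explicit element of `SL(2, ℤ)` with first column `(x, 1)`. -/
def colOne (x : ℤ) : SL(2, ℤ) := ⟨!![x, -1; 1, 0], by simp [Matrix.det_fin_two]⟩

@[simp] lemma colOne_00 (x : ℤ) : colOne x 0 0 = x := rfl
@[simp] lemma colOne_10 (x : ℤ) : colOne x 1 0 = 1 := rfl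

/-- The fixed points on `SL(2, ℤ) ⧸ Γ₀(N)` of an element `γ` such that the lower left entry is
`±1` up to sign: they correspond to the roots of the associated quadratic polynomial. -/
theorem card_fixed {N : ℕ} (γ : SL(2, ℤ)) (hγ : γ 1 0 = 1 ∨ γ 1 0 = -1) :
    Nat.card {x : X N // γ • x = x} =
      Nat.card {x : ZMod N // ((γ 1 0 : ℤ) : ZMod N) * x ^ 2
        + ((γ 1 1 : ℤ) - (γ 0 0 : ℤ) : ZMod N) * x - ((γ 0 1 : ℤ) : ZMod N) = 0} := by
  have hunit : ∀ g : SL(2, ℤ), γ • (QuotientGroup.mk g : X N) = QuotientGroup.mk g →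
      IsUnit ((g 1 0 : ℤ) : ZMod N) := by
    intro g hg
    rw [smul_mk_eq_mk_iff] at hg
    apply isUnit_c_of
    intro p hp hpN hpc
    have h1 : (p : ℤ) ∣ γ 0 1 * g 1 0 ^ 2 + (γ 0 0 - γ 1 1) * g 0 0 * g 1 0
        - γ 1 0 * g 0 0 ^ 2 := (Int.natCast_dvd_natCast.mpr hpN).trans hg
    have h2 : (p : ℤ) ∣ γ 1 0 * g 0 0 ^ 2 := by
      have h3 : (p : ℤ) ∣ γ 0 1 * g 1 0 ^ 2 + (γ 0 0 - γ 1 1) * g 0 0 * g 1 0 := by
        apply dvd_add
        · exact (hpc.pow (by norm_num)).mul_left _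
        · exact hpc.mul_left _
      have := dvd_sub h3 h1
      simpa using this
    have h4 : (p : ℤ) ∣ g 0 0 ^ 2 := by
      rcases hγ with h | h <;> rw [h] at h2 <;> simpa using h2
    exact (Nat.prime_iff_prime_int.mp hp).dvd_of_dvd_pow h4
  symm
  let f : {x : ZMod N // ((γ 1 0 : ℤ) : ZMod N) * x ^ 2
        + ((γ 1 1 : ℤ) - (γ 0 0 : ℤ) : ZMod N) * x - ((γ 0 1 : ℤ) : ZMod N) = 0} →
      {x : X N // γ • x = x} := fun x => ⟨QuotientGroup.mk (colOne (ZMod.cast x.1 : ℤ)), by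
    rw [smul_mk_eq_mk_iff, ← ZMod.intCast_zmod_eq_zero_iff_dvd]
    push_cast
    rw [colOne_00, colOne_10, ZMod.intCast_zmod_cast]
    have := x.2
    push_cast at this ⊢
    linear_combination -this⟩
  refine Nat.card_congr (Equiv.ofBijective f ⟨?_, ?_⟩)
  · rintro ⟨x, hx⟩ ⟨y, hy⟩ hxy
    simp only [f, Subtype.mk.injEq] at hxy
    rw [mk_eq_mk_iff'] at hxy
    simp only [colOne_00, colOne_10, ZMod.intCast_zmod_cast] at hxy
    simpa using hxy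
  · rintro ⟨x, hx⟩
    induction x using QuotientGroup.induction_on with
    | H g =>
      have hu := hunit g hx
      have h1 := ZMod.mul_inv_of_unit _ hu
      rw [smul_mk_eq_mk_iff, ← ZMod.intCast_zmod_eq_zero_iff_dvd] at hx
      push_cast at hx
      refine ⟨⟨((g 0 0 : ℤ) : ZMod N) * ((g 1 0 : ℤ) : ZMod N)⁻¹, ?_⟩, ?_⟩
      · have hu2 : IsUnit (((g 1 0 : ℤ) : ZMod N) ^ 2) := hu.pow 2
        apply hu2.mul_left_cancel
        rw [mul_zero]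
        linear_combination (-1 : ZMod N) * hx
          + ((((γ 1 0 : ℤ) : ZMod N)) * ((g 0 0 : ℤ) : ZMod N) ^ 2
              * (((g 1 0 : ℤ) : ZMod N) * ((g 1 0 : ℤ) : ZMod N)⁻¹ + 1)
            + (((γ 1 1 : ℤ) : ZMod N) - ((γ 0 0 : ℤ) : ZMod N)) * ((g 0 0 : ℤ) : ZMod N)
              * ((g 1 0 : ℤ) : ZMod N)) * h1
      · apply Subtype.ext
        simp only [f]
        rw [mk_eq_mk_iff', colOne_00, colOne_10, ZMod.intCast_zmod_cast]
        push_cast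
        linear_combination ((g 0 0 : ℤ) : ZMod N) * h1

end Fermat.Agent.Gam0
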