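import Fermat.Agent.Gam0.Orbits

/-!
# Counting the orbits of `T` on `SL(2, ℤ) ⧸ Γ₀(N)`
-/

set_option autoImplicit false

open Matrix Matrix.SpecialLinearGroup CongruenceSubgroup
open scoped MatrixGroups

namespace Fermat.Agent.Gam0

lemma T_zpow_mul_00 (n : ℤ) (g : SL(2, ℤ)) :
    (ModularGroup.T ^ n * g) 0 0 = g 0 0 + n * g 1 0 := by
  rw [mul_apply_00, ModularGroup.coe_T_zpow]
  simp

lemma T_zpow_mul_10 (n : ℤ) (g : SL(2, ℤ)) :
    (ModularGroup.T ^ n * g) 1 0 = g 1 0 := by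
  rw [mul_apply_10, ModularGroup.coe_T_zpow]
  simp

lemma T_zpow_smul_eq_iff {N : ℕ} (n : ℤ) (g h : SL(2, ℤ)) :
    ModularGroup.T ^ n • (QuotientGroup.mk g : X N) = QuotientGroup.mk h ↔
      (N : ℤ) ∣ (g 0 0 + n * g 1 0) * h 1 0 - h 0 0 * g 1 0 := by
  rw [smul_mk, mk_eq_mk_iff, T_zpow_mul_00, T_zpow_mul_10]

lemma mem_orbit_T_iff {N : ℕ} (g h : SL(2, ℤ)) :
    (QuotientGroup.mk h : X N) ∈ MulAction.orbit (Subgroup.zpowers ModularGroup.T)
        (QuotientGroup.mk g : X N) ↔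
      ∃ n : ℤ, (N : ℤ) ∣ (g 0 0 + n * g 1 0) * h 1 0 - h 0 0 * g 1 0 := by
  constructor
  · rintro ⟨⟨_, n, rfl⟩, hn⟩
    exact ⟨n, (T_zpow_smul_eq_iff n g h).mp hn⟩
  · rintro ⟨n, hn⟩
    exact ⟨⟨_, n, rfl⟩, (T_zpow_smul_eq_iff n g h).mpr hn⟩

/-- `δ(g) = gcd(c, N)` is an invariant of the `T`-orbit of `g Γ₀(N)`. -/
lemma gcd_dvd_of {N : ℕ} {a c a' c' n : ℤ} (hac : IsCoprime a c)
    (h : (N : ℤ) ∣ (a + n * c) * c' - a' * c) : (Int.gcd c N : ℤ) ∣ c' := by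
  set δ : ℤ := (Int.gcd c N : ℤ) with hδ
  have h1 : δ ∣ c := Int.gcd_dvd_left _ _
  have h2 : δ ∣ (N : ℤ) := Int.gcd_dvd_right _ _
  have h3 : δ ∣ a * c' := by
    have h4 := h2.trans h
    have h5 : δ ∣ (n * c') * c - a' * c := dvd_sub (h1.mul_left _) (h1.mul_left _)
    have h6 := dvd_sub h4 h5
    have h7 : (a + n * c) * c' - a' * c - (n * c' * c - a' * c) = a * c' := by ring
    rwa [h7] at h6
  have h8 : IsCoprime δ a := (hac.symm.of_isCoprime_of_dvd_left h1)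
  exact h8.dvd_of_dvd_mul_left h3

lemma gcd_eq_of {N : ℕ} {a c a' c' n : ℤ} (hac : IsCoprime a c) (hac' : IsCoprime a' c')
    (h : (N : ℤ) ∣ (a + n * c) * c' - a' * c) : Int.gcd c N = Int.gcd c' N := by
  have h1 : (Int.gcd c N : ℤ) ∣ Int.gcd c' N := by
    rw [Int.dvd_coe_gcd_iff]
    exact ⟨gcd_dvd_of hac h, Int.gcd_dvd_right _ _⟩
  have h' : (N : ℤ) ∣ (a' + (-n) * c') * c - a * c' := by
    have h2 := (dvd_neg.mpr h)
    have h3 : -((a + n * c) * c' - a' * c) = (a' + (-n) * c') * c - a * c' := by ring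
    rwa [h3] at h2
  have h2 : (Int.gcd c' N : ℤ) ∣ Int.gcd c N := by
    rw [Int.dvd_coe_gcd_iff]
    exact ⟨gcd_dvd_of hac' h', Int.gcd_dvd_right _ _⟩
  exact Nat.dvd_antisymm (Int.natCast_dvd_natCast.mp h1) (Int.natCast_dvd_natCast.mp h2)

/-- lift of a unit mod `m` to an integer prime to a multiple `δ`. -/
lemma exists_lift {m δ : ℕ} [NeZero δ] (h : m ∣ δ) (r : (ZMod m)ˣ) :
    ∃ a : ℤ, IsCoprime a (δ : ℤ) ∧ (a : ZMod m) = (r : ZMod m) := by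
  obtain ⟨s, hs⟩ := ZMod.unitsMap_surjective h r
  refine ⟨(ZMod.cast (s : ZMod δ) : ℤ), ?_, ?_⟩
  · rw [isCoprime_comm, ← ZMod.coe_int_isUnit_iff_isCoprime, ZMod.intCast_zmod_cast]
    exact s.isUnit
  · rw [← hs]
    simp [ZMod.unitsMap_def]

/-- The index set of the `T`-orbits. -/
abbrev CuspIndex (N : ℕ) : Type := Σ δ : {δ : ℕ // δ ∈ N.divisors},
  (ZMod (Nat.gcd δ.1 (N / δ.1)))ˣ

/-- Integral lift of the numerator. -/
noncomputable def numLift {N : ℕ} (i : CuspIndex N) : ℤ :=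
  haveI : NeZero i.1.1 := ⟨(Nat.pos_of_mem_divisors i.1.2).ne'⟩
  (exists_lift (Nat.gcd_dvd_left i.1.1 (N / i.1.1)) i.2).choose

lemma isCoprime_numLift {N : ℕ} (i : CuspIndex N) : IsCoprime (numLift i) (i.1.1 : ℤ) :=
  haveI : NeZero i.1.1 := ⟨(Nat.pos_of_mem_divisors i.1.2).ne'⟩
  (exists_lift (Nat.gcd_dvd_left i.1.1 (N / i.1.1)) i.2).choose_spec.1

lemma cast_numLift {N : ℕ} (i : CuspIndex N) :
    ((numLift i : ℤ) : ZMod (Nat.gcd i.1.1 (N / i.1.1))) = (i.2 : ZMod _) :=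
  haveI : NeZero i.1.1 := ⟨(Nat.pos_of_mem_divisors i.1.2).ne'⟩
  (exists_lift (Nat.gcd_dvd_left i.1.1 (N / i.1.1)) i.2).choose_spec.2

/-- A representative of the `T`-orbit with index `i`. -/
noncomputable def cuspRep {N : ℕ} (i : CuspIndex N) : SL(2, ℤ) :=
  ((isCoprime_numLift i).exists_SL2_col 0).choose

lemma cuspRep_00 {N : ℕ} (i : CuspIndex N) : cuspRep i 0 0 = numLift i :=
  ((isCoprime_numLift i).exists_SL2_col 0).choose_spec.1

lemma cuspRep_10 {N : ℕ} (i : CuspIndex N) : cuspRep i 1 0 = (i.1.1 : ℤ) :=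
  ((isCoprime_numLift i).exists_SL2_col 0).choose_spec.2

/-- The map from the index set to the `T`-orbits. -/
noncomputable def cuspMap (N : ℕ) (i : CuspIndex N) :
    MulAction.orbitRel.Quotient (Subgroup.zpowers ModularGroup.T) (X N) :=
  Quotient.mk _ (QuotientGroup.mk (cuspRep i) : X N)

lemma cuspMap_injective (N : ℕ) [NeZero N] : Function.Injective (cuspMap N) := by
  rintro ⟨⟨δ, hδ⟩, r⟩ ⟨⟨δ', hδ'⟩, r'⟩ h
  have h1 : (QuotientGroup.mk (cuspRep ⟨⟨δ, hδ⟩, r⟩) : X N) ∈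
      MulAction.orbit (Subgroup.zpowers ModularGroup.T)
        (QuotientGroup.mk (cuspRep ⟨⟨δ', hδ'⟩, r'⟩) : X N) :=
    MulAction.orbitRel_apply.mp (Quotient.exact h)
  rw [mem_orbit_T_iff] at h1
  obtain ⟨n, hn⟩ := h1
  have hg1 := gcd_eq_of (isCoprime_col _) (isCoprime_col _) hn
  rw [cuspRep_10, cuspRep_10] at hg1
  simp only [Int.gcd_natCast_natCast] at hg1
  rw [Nat.gcd_eq_left (Nat.dvd_of_mem_divisors hδ), Nat.gcd_eq_left (Nat.dvd_of_mem_divisors hδ')]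
    at hg1
  subst hg1
  congr 1
  rw [cuspRep_00, cuspRep_00, cuspRep_10, cuspRep_10] at hn
  obtain ⟨M, hM⟩ := Nat.dvd_of_mem_divisors hδ
  have hδ0 : 0 < δ' := Nat.pos_of_mem_divisors hδ
  have hMd : N / δ' = M := by rw [hM]; exact Nat.mul_div_cancel_left _ hδ0
  have h2 : (M : ℤ) ∣ numLift ⟨⟨δ', hδ'⟩, r'⟩ + n * δ' - numLift ⟨⟨δ', hδ⟩, r⟩ := by
    obtain ⟨k, hk⟩ := hn
    refine ⟨k, ?_⟩
    have hk' : (δ' : ℤ) * (numLift ⟨⟨δ', hδ'⟩, r'⟩ + n * δ' - numLift ⟨⟨δ', hδ⟩, r⟩)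
        = δ' * (M * k) := by
      have h3 : ((N : ℕ) : ℤ) = δ' * M := by rw [hM]; push_cast; ring
      rw [h3] at hk
      simp only at hk
      linear_combination hk
    exact mul_left_cancel₀ (by exact_mod_cast hδ0.ne') hk'
  have h3 : ((Nat.gcd δ' (N / δ') : ℕ) : ℤ) ∣ numLift ⟨⟨δ', hδ'⟩, r'⟩ - numLift ⟨⟨δ', hδ⟩, r⟩ := by
    have h4 : ((Nat.gcd δ' (N / δ') : ℕ) : ℤ) ∣ (M : ℤ) := by
      rw [hMd]; exact_mod_cast Nat.gcd_dvd_right _ _
    have h5 : ((Nat.gcd δ' (N / δ') : ℕ) : ℤ) ∣ (δ' : ℤ) := by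
      exact_mod_cast Nat.gcd_dvd_left _ _
    have h6 := dvd_sub (h4.trans h2) (h5.mul_left n)
    have h7 : numLift ⟨⟨δ', hδ'⟩, r'⟩ + n * δ' - numLift ⟨⟨δ', hδ⟩, r⟩ - n * δ'
      = numLift ⟨⟨δ', hδ'⟩, r'⟩ - numLift ⟨⟨δ', hδ⟩, r⟩ := by ring
    rwa [h7] at h6
  apply Units.ext
  have e1 := cast_numLift (⟨⟨δ', hδ⟩, r⟩ : CuspIndex N)
  have e2 := cast_numLift (⟨⟨δ', hδ'⟩, r'⟩ : CuspIndex N)
  simp only at e1 e2
  rw [← e1, ← e2, eq_comm, ← sub_eq_zero, ← Int.cast_sub, ZMod.intCast_zmod_eq_zero_iff_dvd]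
  exact h3

lemma cuspMap_surjective (N : ℕ) [NeZero N] : Function.Surjective (cuspMap N) := by
  intro ω
  induction ω using Quotient.inductionOn with
  | h x =>
    induction x using QuotientGroup.induction_on with
    | H g =>
      set δ : ℕ := Int.gcd (g 1 0) N with hδ
      have hδN : δ ∣ N := Int.natCast_dvd_natCast.mp (Int.gcd_dvd_right _ _)
      have hN0 : N ≠ 0 := NeZero.ne N
      have hδ0 : 0 < δ := Nat.pos_of_dvd_of_pos hδN (Nat.pos_of_ne_zero hN0)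
      obtain ⟨M, hM⟩ := hδN
      have hMd : N / δ = M := by rw [hM]; exact Nat.mul_div_cancel_left _ hδ0
      obtain ⟨u, hu⟩ : (δ : ℤ) ∣ g 1 0 := Int.gcd_dvd_left _ _
      have hδZ : (δ : ℤ) ≠ 0 := by exact_mod_cast hδ0.ne'
      -- `u` is prime to `M`
      have huM : IsCoprime u (M : ℤ) := by
        obtain ⟨x, y, hxy⟩ : ∃ x y : ℤ, (δ : ℤ) = g 1 0 * x + N * y :=
          ⟨_, _, Int.gcd_eq_gcd_ab _ _⟩
        refine ⟨x, y, ?_⟩
        apply mul_left_cancel₀ hδZ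
        have h3 : ((N : ℕ) : ℤ) = δ * M := by rw [hM]; push_cast; ring
        rw [hu, h3] at hxy
        linear_combination -hxy
      set m : ℕ := Nat.gcd δ (N / δ) with hm
      have hmM : m ∣ M := by rw [hm, hMd]; exact Nat.gcd_dvd_right _ _
      have hmδ : m ∣ δ := Nat.gcd_dvd_left _ _
      have hum : IsCoprime u (m : ℤ) :=
        huM.of_isCoprime_of_dvd_right (by exact_mod_cast hmM)
      have ham : IsCoprime (g 0 0) (m : ℤ) :=
        (isCoprime_col g).of_isCoprime_of_dvd_right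
          ((Int.natCast_dvd_natCast.mpr hmδ).trans (Int.gcd_dvd_left _ _))
      let r : (ZMod m)ˣ := ZMod.unitOfIsCoprime (g 0 0) ham * (ZMod.unitOfIsCoprime u hum)⁻¹
      let i : CuspIndex N := ⟨⟨δ, Nat.mem_divisors.mpr ⟨⟨M, hM⟩, hN0⟩⟩, r⟩
      refine ⟨i, ?_⟩
      refine (Quotient.sound ?_).symm
      refine MulAction.orbitRel_apply.mpr ?_
      rw [mem_orbit_T_iff, cuspRep_00, cuspRep_10]
      have e1 : ((numLift i : ℤ) : ZMod m) = (r : ZMod m) := cast_numLift i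
      have e2 : (m : ℤ) ∣ numLift i * u - g 0 0 := by
        rw [← ZMod.intCast_zmod_eq_zero_iff_dvd]
        push_cast
        rw [e1]
        simp only [r]
        push_cast
        rw [ZMod.coe_unitOfIsCoprime, sub_eq_zero, mul_assoc]
        have : (((ZMod.unitOfIsCoprime u hum)⁻¹ : (ZMod m)ˣ) : ZMod m) * (u : ZMod m) = 1 := by
          rw [← ZMod.coe_unitOfIsCoprime u hum, ← Units.val_mul, inv_mul_cancel, Units.val_one]
        rw [this, mul_one]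
      obtain ⟨k, hk⟩ := e2
      have hm0 : 0 < m := Nat.gcd_pos_of_pos_left _ hδ0
      obtain ⟨δ1, hδ1⟩ := hmδ
      obtain ⟨M1, hM1⟩ := hmM
      have hcop1 : IsCoprime (δ1 : ℤ) (M1 : ℤ) := by
        rw [Nat.isCoprime_iff_coprime]
        have := Nat.coprime_div_gcd_div_gcd (m := δ) (n := N / δ) hm0
        rw [← hm, hMd] at this
        rwa [hδ1, hM1, Nat.mul_div_cancel_left _ hm0, Nat.mul_div_cancel_left _ hm0] at this
      have hcop2 : IsCoprime u (M1 : ℤ) :=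
        huM.of_isCoprime_of_dvd_right ⟨m, by rw [hM1]; push_cast; ring⟩
      obtain ⟨s, t, hst⟩ := hcop1.mul_left hcop2
      refine ⟨-(s * k), ⟨t * k, ?_⟩⟩
      have h3 : ((N : ℕ) : ℤ) = (m * δ1) * (m * M1) := by
        rw [hM, hM1]; push_cast; rw [hδ1]; push_cast; ring
      have h4 : ((i.1.1 : ℕ) : ℤ) = m * δ1 := by
        show ((δ : ℕ) : ℤ) = m * δ1
        rw [hδ1]; push_cast; ring
      have h5 : (δ : ℤ) = m * δ1 := by
        rw [hδ1]; push_cast; ring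
      rw [h4, h3, hu, h5]
      linear_combination (m * δ1 : ℤ) * hk - (m * δ1 * m * k : ℤ) * hst

/-- The number of `T`-orbits on `SL(2, ℤ) ⧸ Γ₀(N)` is the number of cusps. -/
theorem card_orbits_T (N : ℕ) [NeZero N] :
    Nat.card (MulAction.orbitRel.Quotient (Subgroup.zpowers ModularGroup.T) (X N)) =
      ModularCurve.cuspCount N := by
  rw [← Nat.card_congr (Equiv.ofBijective (cuspMap N)
    ⟨cuspMap_injective N, cuspMap_surjective N⟩), ModularCurve.cuspCount]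
  have hpos : ∀ δ : {δ : ℕ // δ ∈ N.divisors}, 0 < Nat.gcd δ.1 (N / δ.1) := fun δ =>
    Nat.gcd_pos_of_pos_left _ (Nat.pos_of_mem_divisors δ.2)
  rw [Nat.card_sigma]
  rw [← Finset.sum_coe_sort N.divisors]
  refine Finset.sum_congr rfl fun δ _ => ?_
  haveI : NeZero (Nat.gcd δ.1 (N / δ.1)) := ⟨(hpos δ).ne'⟩
  rw [Nat.card_eq_fintype_card, ZMod.card_units_eq_totient]

end Fermat.Agent.Gam0
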