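import Fermat.Agent.Gam0.Basic
import Mathlib.GroupTheory.GroupAction.Quotient
import Mathlib.Dynamics.PeriodicPts.Lemmas

/-!
# Orbit counts for cyclic groups acting on `SL(2, ℤ) ⧸ Γ₀(N)`
-/

set_option autoImplicit false

open Matrix Matrix.SpecialLinearGroup CongruenceSubgroup
open scoped MatrixGroups

namespace Fermat.Agent.Gam0

section General

variable {G Y : Type*} [Group G] [MulAction G Y] [Finite Y]

/-- Number of orbits of a cyclic group whose generator acts with order dividing a prime `p`. -/
theorem card_orbits_zpowers_prime (γ : G) (p : ℕ) (hp : p.Prime)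
    (hγ : ∀ y : Y, γ ^ p • y = y) :
    Nat.card Y + (p - 1) * Nat.card {y : Y // γ • y = y} =
      p * Nat.card (MulAction.orbitRel.Quotient (Subgroup.zpowers γ) Y) := by
  classical
  have := Fintype.ofFinite Y
  set Ω := MulAction.orbitRel.Quotient (Subgroup.zpowers γ) Y with hΩ
  have : Finite Ω := Quotient.finite _
  have := Fintype.ofFinite Ω
  let per : Ω → ℕ := fun ω => Function.minimalPeriod (γ • · : Y → Y) ω.out
  have hper : ∀ ω, per ω = 1 ∨ per ω = p := by
    intro ω
    have h1 : Function.IsPeriodicPt (γ • · : Y → Y) p ω.out := by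
      rw [Function.IsPeriodicPt, Function.IsFixedPt, smul_iterate]
      exact hγ _
    exact (Nat.dvd_prime hp).mp h1.minimalPeriod_dvd
  have hcardorb : ∀ ω : Ω, Nat.card (MulAction.orbit (Subgroup.zpowers γ) ω.out) = per ω := by
    intro ω
    rw [Nat.card_congr (MulAction.orbitZPowersEquiv γ ω.out), Nat.card_zmod]
  have hY : Nat.card Y = ∑ ω : Ω, per ω := by
    rw [Nat.card_congr (MulAction.selfEquivSigmaOrbits (Subgroup.zpowers γ) Y), Nat.card_sigma]
    exact Finset.sum_congr rfl fun ω _ => hcardorb ω
  have hfix : Nat.card {y : Y // γ • y = y} = ∑ ω : Ω, if per ω = 1 then 1 else 0 := by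
    have h1 : ∀ ω : Ω, per ω = 1 ↔ γ • ω.out = ω.out := by
      intro ω
      rw [show per ω = Function.minimalPeriod (γ • · : Y → Y) ω.out from rfl,
        Function.minimalPeriod_eq_one_iff_isFixedPt]
      rfl
    let e : {ω : Ω // per ω = 1} → {y : Y // γ • y = y} := fun ω => ⟨ω.1.out, (h1 _).mp ω.2⟩
    have he : Function.Bijective e := by
      constructor
      · rintro ⟨ω, h⟩ ⟨ω', h'⟩ heq
        simp only [e, Subtype.mk.injEq] at heq
        have := congrArg (Quotient.mk (MulAction.orbitRel (Subgroup.zpowers γ) Y)) heq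
        simpa using this
      · rintro ⟨y, hy⟩
        let ω : Ω := Quotient.mk _ y
        have hmem : ω.out ∈ MulAction.orbit (Subgroup.zpowers γ) y :=
          MulAction.orbitRel_apply.mp (Quotient.mk_out y)
        have hzp : ∀ n : ℤ, γ ^ n • y = y := by
          intro n
          exact MulAction.mem_fixedBy_zpow (α := Y) hy n
        have hout : ω.out = y := by
          obtain ⟨⟨g, n, rfl⟩, hg⟩ := hmem
          rw [← hg]
          exact hzp n
        refine ⟨⟨ω, ?_⟩, ?_⟩
        · rw [h1, hout, hy]
        · apply Subtype.ext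
          exact hout
    rw [← Nat.card_congr (Equiv.ofBijective e he), Nat.card_eq_fintype_card,
      Fintype.card_subtype, Finset.card_filter]
  rw [hY, hfix, Finset.mul_sum, ← Finset.sum_add_distrib, Nat.card_eq_fintype_card,
    ← Finset.card_univ, mul_comm p, ← smul_eq_mul, ← Finset.sum_const]
  refine Finset.sum_congr rfl fun ω _ => ?_
  rcases hper ω with h | h
  · rw [h]; simp; have := hp.one_lt; omega
  · rw [h]; have := hp.one_lt; simp [this.ne']

end General

end Fermat.Agent.Gam0
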